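/-
Project S36 (and S35), cell [K36], part 1: a GENERIC KUMMER CALCULUS (helper16; prefix `s36k_`).

For a function field `F / K` the relation

  `s36k_Kum m D f`  :  `f ≠ 0` and `m • D = div f`

between divisors and functions is closed under all the operations which occur in the Kummer
translations of the geometric seams of S34 / S35 / S36:

* `s36k_kum_smul`  : semilinear automorphisms `(g • D, g • f)`;
* `s36k_kum_mul`, `s36k_kum_div`, `s36k_kum_inv`, `s36k_kum_pow` : `(D + D', f f')`, `(D - D', f / f')`,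
                     `(-D, f⁻¹)`, `(k • D, f ^ k)`;
* `s36k_kum_push`  : push-forward / norm `(φ_* D, Norm_φ f)` (norm formula);
* `s36k_kum_pull`  : pull-back `(φ^* D, φ f)`;
and it translates principality:
* `s36k_kum_exists`          : `m • [D] = 0 → ∃ f, Kum m D f`;
* `s36k_const_pow_of_isPrincipal` : `Kum m D f → D` principal `→ f = c · h^m` (`K` algebraically closed);
* `s36k_isPrincipal_of_const_pow` : `Kum m D f → m ≠ 0 → f = c · r^m → D` principal;
* `s36k_mk_eq_zero_iff`      : `[D] = 0 ↔ D` principal.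
-/
import Mathlib
import Fermat.Agent.S35.KummerGeom

set_option autoImplicit false
set_option linter.unusedSectionVars false
set_option linter.unusedVariables false
set_option linter.style.haveILetI false
set_option synthInstance.maxHeartbeats 400000
set_option maxHeartbeats 1000000

noncomputable section

namespace Fermat.Agent.S36

open ModularCurve AlgebraicCurve Fermat.Agent.S24 Fermat.Agent.JT3 Fermat.Agent.SS Fermat.Agent.S35

section Generic

variable {K F F' : Type*} [Field K] [Field F] [Field F'] [Algebra K F] [Algebra K F']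

/-- `f ≠ 0` and `m • D = div f`. -/
def s36k_Kum (m : ℕ) (D : Divisor K F) (f : F) : Prop :=
  f ≠ 0 ∧ ∀ v : Place K F, (m : ℤ) * D v = v.ord f

theorem s36k_Kum.ne_zero {m : ℕ} {D : Divisor K F} {f : F} (h : s36k_Kum m D f) : f ≠ 0 := h.1

theorem s36k_Kum.ord {m : ℕ} {D : Divisor K F} {f : F} (h : s36k_Kum m D f) (v : Place K F) :
    (m : ℤ) * D v = v.ord f := h.2 v

theorem s36k_Kum.dvd {m : ℕ} {D : Divisor K F} {f : F} (h : s36k_Kum m D f) (v : Place K F) :
    (m : ℤ) ∣ v.ord f := ⟨D v, (h.2 v).symm⟩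

/-- the class of `D` is killed by `m`: `m • D = div f` for some `f`. -/
theorem s36k_kum_exists {D : Divisor.degZero (K := K) (F := F)} {m : ℕ}
    (h : m • Pic0.mk D = 0) : ∃ f : F, s36k_Kum m (D : Divisor K F) f := by
  obtain ⟨f, hf, hfD⟩ := s35p_isPrincipal_of_nsmul_mk h
  refine ⟨f, hf, fun v => ?_⟩
  rw [← hfD v, Finsupp.smul_apply, nsmul_eq_mul]

/-- semilinear automorphisms -/
theorem s36k_kum_smul (g : SemilinearAut K F) {m : ℕ} {D : Divisor K F} {f : F}
    (h : s36k_Kum m D f) : s36k_Kum m (g • D) (g • f) := by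
  refine ⟨by rw [Ne, smul_eq_zero_iff_eq]; exact h.1, fun v => ?_⟩
  rw [ssk_ord_smul, ← h.2, SemilinearAut.divisor_smul_apply]

theorem s36k_kum_mul {m : ℕ} {D D' : Divisor K F} {f f' : F}
    (h : s36k_Kum m D f) (h' : s36k_Kum m D' f') : s36k_Kum m (D + D') (f * f') := by
  refine ⟨mul_ne_zero h.1 h'.1, fun v => ?_⟩
  rw [v.ord_mul h.1 h'.1, ← h.2, ← h'.2, Finsupp.add_apply, mul_add]

theorem s36k_kum_inv {m : ℕ} {D : Divisor K F} {f : F}
    (h : s36k_Kum m D f) : s36k_Kum m (-D) f⁻¹ := by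
  refine ⟨inv_ne_zero h.1, fun v => ?_⟩
  rw [v.ord_inv, ← h.2, Finsupp.neg_apply, mul_neg]

theorem s36k_kum_div {m : ℕ} {D D' : Divisor K F} {f f' : F}
    (h : s36k_Kum m D f) (h' : s36k_Kum m D' f') : s36k_Kum m (D - D') (f / f') := by
  rw [sub_eq_add_neg, div_eq_mul_inv]
  exact s36k_kum_mul h (s36k_kum_inv h')

theorem s36k_kum_pow {m : ℕ} {D : Divisor K F} {f : F}
    (h : s36k_Kum m D f) (k : ℕ) : s36k_Kum m (k • D) (f ^ k) := by
  refine ⟨pow_ne_zero k h.1, fun v => ?_⟩
  rw [ssk_ord_pow, ← h.2, Finsupp.smul_apply, nsmul_eq_mul]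
  ring

/-- push-forward and norm -/
theorem s36k_kum_push (φ : F →ₐ[K] F') (hφ : φ.toRingHom.IsIntegral) (hfin : FiniteAlong K φ)
    (hN : NormFormulaAlong K φ hfin) {m : ℕ} {D : Divisor K F'} {f : F'}
    (h : s36k_Kum m D f) :
    s36k_Kum m (Divisor.pushforwardAlong φ hφ D) (s35k_norm φ f) := by
  constructor
  · letI := algebraAlong φ
    haveI : Module.Finite F F' := hfin
    exact Algebra.norm_ne_zero_iff.mpr h.1
  · intro v
    have hnorm : Divisor.pushforwardAlong φ hφ (m • D) v = v.ord (s35k_norm φ f) := by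
      letI := algebraAlong φ
      haveI := isScalarTower_along φ
      haveI := isIntegral_along φ hφ
      haveI : Module.Finite F F' := hfin
      exact hN f h.1 (m • D) (fun w => by
        rw [Finsupp.smul_apply, nsmul_eq_mul]; exact h.2 w) v
    rw [← hnorm, map_nsmul, Finsupp.smul_apply, nsmul_eq_mul]

/-- pull-back -/
theorem s36k_kum_pull [HasPrincipalDivisors K F'] (φ : F →ₐ[K] F')
    (hφ : φ.toRingHom.IsIntegral) {m : ℕ} {D : Divisor K F} {f : F}
    (h : s36k_Kum m D f) :
    s36k_Kum m (Divisor.pullbackAlong φ hφ D) (φ f) := by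
  refine ⟨by rw [Ne, map_eq_zero]; exact h.1, fun w => ?_⟩
  rw [Divisor.pullbackAlong_apply, Place.ord_restrictAlong φ hφ w f, ← h.2]
  ring

variable [IsAlgClosed K]

/-- `m • D = div f` and `D` principal: `f = c · h^m` -/
theorem s36k_const_pow_of_isPrincipal {x : F} (hx : rt_IsSepGen K x) {m : ℕ} {D : Divisor K F}
    {f : F} (h : s36k_Kum m D f) (hD : D.IsPrincipal) :
    ∃ (c : K) (r : F), r ≠ 0 ∧ f = algebraMap K F c * r ^ m := by
  obtain ⟨r, hr, hrD⟩ := hD
  have hord : ∀ v : Place K F, v.ord f = v.ord (r ^ m) := by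
    intro v
    rw [← h.2, hrD, ssk_ord_pow]
  obtain ⟨c, -, hc⟩ := s35k_eq_const_mul hx h.1 (pow_ne_zero m hr) hord
  exact ⟨c, r, hr, hc⟩

omit [IsAlgClosed K] in
/-- `m • D = div f` and `f = c · r^m`: `D` is principal -/
theorem s36k_isPrincipal_of_const_pow {m : ℕ} (hm : m ≠ 0) {D : Divisor K F}
    {f : F} (h : s36k_Kum m D f) {c : K} {r : F} (hr : r ≠ 0)
    (hf : f = algebraMap K F c * r ^ m) : D.IsPrincipal := by
  have hc : c ≠ 0 := by
    rintro rfl
    rw [map_zero, zero_mul] at hf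
    exact h.1 hf
  have hcF : algebraMap K F c ≠ 0 := by rwa [Ne, map_eq_zero]
  refine ⟨r, hr, fun v => ?_⟩
  have h1 := h.2 v
  rw [hf, v.ord_mul hcF (pow_ne_zero m hr), ssk_ord_algebraMap v hc, ssk_ord_pow, zero_add] at h1
  have hm' : (m : ℤ) ≠ 0 := by exact_mod_cast hm
  exact mul_left_cancel₀ hm' h1

omit [IsAlgClosed K] in
/-- the class of `D` vanishes iff `D` is principal -/
theorem s36k_mk_eq_zero_iff (D : Divisor.degZero (K := K) (F := F)) :
    Pic0.mk D = 0 ↔ (D : Divisor K F).IsPrincipal := by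
  constructor
  · intro h
    have h2 := (QuotientAddGroup.eq_zero_iff _).1 h
    rw [AddSubgroup.mem_addSubgroupOf] at h2
    exact h2
  · intro h
    refine (QuotientAddGroup.eq_zero_iff _).2 ?_
    rw [AddSubgroup.mem_addSubgroupOf]
    exact h

omit [IsAlgClosed K] in
/-- `m • D = div f`, `f ^ d = c · r^m`: `d • [D] = 0` -/
theorem s36k_nsmul_mk_eq_zero {m : ℕ} (hm : m ≠ 0) {D : Divisor.degZero (K := K) (F := F)}
    {f : F} (h : s36k_Kum m (D : Divisor K F) f) (d : ℕ) {c : K} {r : F} (hr : r ≠ 0)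
    (hf : f ^ d = algebraMap K F c * r ^ m) : d • Pic0.mk D = 0 := by
  have h1 : d • Pic0.mk D = Pic0.mk (d • D) := (map_nsmul (QuotientAddGroup.mk' _) d D).symm
  rw [h1, s36k_mk_eq_zero_iff]
  have h2 : ((d • D : Divisor.degZero (K := K) (F := F)) : Divisor K F) =
      d • (D : Divisor K F) := AddSubgroup.coe_nsmul _ _ _
  rw [h2]
  exact s36k_isPrincipal_of_const_pow hm (s36k_kum_pow h d) hr hf

end Generic

end Fermat.Agent.S36
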