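/-
Project S36, cell [K36], part 2: KUMMER TRANSLATION + TATE LIMIT for [INV-0] (helper16; prefix
`s36k_`).  Level pair `(N q, N)`, ANY `N` (for S36: `N = N' q`, so the pair is `(N' q², N' q)`),
`α_q, β_q : F̄_N → F̄_{N q}` the two degeneracy maps, `P_i = s35p_P_i N q` (S35/PMaps.lean).

* `s36k_KeyBarAt N q P d` : KUMMER seam at the place `P | q` with exponent `d`: for `q ∤ m` and
      `f ∈ Q̄(X₀(N q))ˣ` with all orders divisible by `m`, `s f = c · r^m · f` for `s ∈ I_P`,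
      `Norm_α f = c · h^m`, `Norm_β f = c · h^m`:  `f ^ d = c · r^m`;
* `s36k_GeomAt N q P d`   : GEOMETRIC seam: `z ∈ J₀(N q)[m]` (`q ∤ m`) fixed by `I_P` and killed by
      `(α_q)_*`, `(β_q)_*`:  `d • z = 0`;
* `s36k_geomAt_of_keyBarAt` : `s36k_KeyBarAt N q P d → s36k_GeomAt N q P d`;
* `s36k_inv0_of_geomAt`   : [INV-0] on the Tate module `T_p J₀(N q)` (`p ≠ q`, `d ≠ 0`): `x` fixed by
      `I_P`, `P₁ x = 0`, `P₂ x = 0`  ⟹  `x = 0`;
* `s36k_KeyBar N q`, `s36k_inv0` : the existential packaging (ONE place `P` over `q` suffices for the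
      seam `s36t_InvNew` of S36/Top.lean).
-/
import Mathlib
import Fermat.Agent.S36.Kum.Calc

set_option autoImplicit false
set_option linter.unusedSectionVars false
set_option linter.unusedVariables false
set_option linter.style.haveILetI false
set_option synthInstance.maxHeartbeats 400000
set_option maxHeartbeats 1000000

noncomputable section

namespace Fermat.Agent.S36

open ModularCurve AlgebraicCurve Fermat.Agent.S24 Fermat.Agent.JT3 Fermat.Agent.SS Fermat.Agent.S35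

local notation "GQ" => (AlgebraicClosure ℚ ≃ₐ[ℚ] AlgebraicClosure ℚ)
local notation "Qbar" => AlgebraicClosure ℚ

section Seams

variable (N q : ℕ) [NeZero N] [NeZero q]

/-- **Kummer seam of [INV-0]** at the place `P` with exponent `d`. -/
def s36k_KeyBarAt (P : ValuationSubring Qbar) (d : ℕ) : Prop :=
  ∀ m : ℕ, ¬ q ∣ m →
    ∀ f : modularFunctionFieldBar (N * q), f ≠ 0 →
      (∀ v : Place Qbar (modularFunctionFieldBar (N * q)), (m : ℤ) ∣ v.ord f) →
      (∀ s ∈ P.inertiaSubgroupIn ℚ, ∃ (c : Qbar) (r : modularFunctionFieldBar (N * q)), r ≠ 0 ∧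
        ss_act (N * q) s f =
          algebraMap Qbar (modularFunctionFieldBar (N * q)) c * r ^ m * f) →
      (∃ (c : Qbar) (h : modularFunctionFieldBar N), h ≠ 0 ∧
        s35k_norm (heckeAlphaBar Qbar N q) f =
          algebraMap Qbar (modularFunctionFieldBar N) c * h ^ m) →
      (∃ (c : Qbar) (h : modularFunctionFieldBar N), h ≠ 0 ∧
        s35k_norm (heckeBetaBar Qbar N q) f =
          algebraMap Qbar (modularFunctionFieldBar N) c * h ^ m) →
      ∃ (c : Qbar) (r : modularFunctionFieldBar (N * q)), r ≠ 0 ∧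
        f ^ d = algebraMap Qbar (modularFunctionFieldBar (N * q)) c * r ^ m

/-- **Geometric seam of [INV-0]** at the place `P` with exponent `d`. -/
def s36k_GeomAt (P : ValuationSubring Qbar) (d : ℕ) : Prop :=
  ∀ m : ℕ, ¬ q ∣ m → ∀ z : JZero (N * q), m • z = 0 →
    (∀ s ∈ P.inertiaSubgroupIn ℚ, s • z = z) → s35p_P1J N q z = 0 → s35p_P2J N q z = 0 →
      d • z = 0

/-- **[K36]** the Kummer seam implies the geometric seam. -/
theorem s36k_geomAt_of_keyBarAt {P : ValuationSubring Qbar} {d : ℕ}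
    (H : s36k_KeyBarAt N q P d) : s36k_GeomAt N q P d := by
  intro m hqm z hmz hfix hP1 hP2
  have hm : m ≠ 0 := by
    rintro rfl
    exact hqm (dvd_zero q)
  obtain ⟨D, rfl⟩ := Pic0.mk_surjective z
  obtain ⟨f, hK⟩ := s36k_kum_exists hmz
  have hD : ∀ v : Place Qbar (modularFunctionFieldBar (N * q)),
      (m : ℤ) * (D : Divisor Qbar (modularFunctionFieldBar (N * q))) v = v.ord f := hK.2
  obtain ⟨c, r, hr, hrel⟩ := H m hqm f hK.1 hK.dvd
    (fun s hs => s35k_fix_kummer (rt_isSepGen_jBar (N * q))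
      (arithmeticGalois (modularFunctionFieldFull (N * q)) s) D hK.1 hD (hfix s hs))
    (s35k_push_kummer (rt_isSepGen_jBar N) _ _ _ _ D hK.1 hD hP1)
    (s35k_push_kummer (rt_isSepGen_jBar N) _ _ _ _ D hK.1 hD hP2)
  exact s36k_nsmul_mk_eq_zero hm hK d hr hrel

end Seams

section Tate

variable (N q : ℕ) [NeZero N] [NeZero q] (p : ℕ) [hp : Fact p.Prime]

/-- **[INV-0]** from the geometric seam: an element of `T_p J₀(N q)` (`p ≠ q`) fixed by the inertia
group `I_P` and killed by `P₁`, `P₂` is zero. -/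
theorem s36k_inv0_of_geomAt {P : ValuationSubring Qbar} {d : ℕ} (hd : d ≠ 0)
    (hG : s36k_GeomAt N q P d) (hq : q.Prime) (hqp : q ≠ p) (x : tj_T (N * q) p)
    (hfix : ∀ s ∈ P.inertiaSubgroupIn ℚ, tj_rho (N * q) p s x = x)
    (h1 : s35p_P1 N q p x = 0) (h2 : s35p_P2 N q p x = 0) : x = 0 := by
  have hpp : p.Prime := hp.out
  refine s35k_tm_nsmul_eq_zero p hd x (tm_ext fun n => ?_)
  rw [tm_nsmul_apply, tm_zero_apply]
  have hqn : ¬ q ∣ p ^ n := fun h =>
    hqp ((Nat.prime_dvd_prime_iff_eq hq hpp).mp (hq.dvd_of_dvd_pow h))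
  exact hG (p ^ n) hqn (x.1 n) (tm_tor x n)
    (fun s hs => by
      have := congrArg (fun y : tj_T (N * q) p => y.1 n) (hfix s hs)
      simpa only [tj_rho_apply] using this)
    (by rw [← s35p_P1_apply, h1]; rfl)
    (by rw [← s35p_P2_apply, h2]; rfl)

/-- [INV-0] from the Kummer seam. -/
theorem s36k_inv0_of_keyBarAt {P : ValuationSubring Qbar} {d : ℕ} (hd : d ≠ 0)
    (H : s36k_KeyBarAt N q P d) (hq : q.Prime) (hqp : q ≠ p) (x : tj_T (N * q) p)
    (hfix : ∀ s ∈ P.inertiaSubgroupIn ℚ, tj_rho (N * q) p s x = x)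
    (h1 : s35p_P1 N q p x = 0) (h2 : s35p_P2 N q p x = 0) : x = 0 :=
  s36k_inv0_of_geomAt N q p hd (s36k_geomAt_of_keyBarAt N q H) hq hqp x hfix h1 h2

end Tate

section Packaged

variable (N q : ℕ) [NeZero N] [NeZero q]

/-- the Kummer seam of [INV-0] at SOME place over `q`, with some exponent `d ≠ 0` (uniform in
`m`). -/
def s36k_KeyBar : Prop :=
  ∃ P : ValuationSubring Qbar, P.LiesOverPrime q ∧ ∃ d : ℕ, d ≠ 0 ∧ s36k_KeyBarAt N q P d

/-- the geometric seam of [INV-0] at SOME place over `q`. -/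
def s36k_Geom : Prop :=
  ∃ P : ValuationSubring Qbar, P.LiesOverPrime q ∧ ∃ d : ℕ, d ≠ 0 ∧ s36k_GeomAt N q P d

theorem s36k_geom_of_keyBar (h : s36k_KeyBar N q) : s36k_Geom N q := by
  obtain ⟨P, hP, d, hd, H⟩ := h
  exact ⟨P, hP, d, hd, s36k_geomAt_of_keyBarAt N q H⟩

/-- **the [INV-0] clause of `s36t_InvNew`** (S36/Top.lean) at level `N q` for `T' := T_p J₀(N)`,
`P_i := s35p_P_i N q p`. -/
theorem s36k_inv0 (h : s36k_Geom N q) (hq : q.Prime) (p : ℕ) [Fact p.Prime] (hqp : q ≠ p) :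
    ∃ A : ValuationSubring Qbar, A.LiesOverPrime q ∧
      ∀ x : tj_T (N * q) p, (∀ s ∈ A.inertiaSubgroupIn ℚ, tj_rho (N * q) p s x = x) →
        s35p_P1 N q p x = 0 → s35p_P2 N q p x = 0 → x = 0 := by
  obtain ⟨P, hP, d, hd, H⟩ := h
  exact ⟨P, hP, fun x hfix h1 h2 => s36k_inv0_of_geomAt N q p hd H hq hqp x hfix h1 h2⟩

end Packaged

end Fermat.Agent.S36
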