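/-
Project S36, wiring cells [KUM] + [TATE-LIM] for the official seam names of `S36/Seams.lean`
(helper16; prefix `s36k_`).

* `s36k_keyBarAt_of_seam` : `s36_KeyBar N' q` gives `s36k_KeyBarAt (N' q) q P d` at every place `P | q`;
* `s36k_geom_of_keyBar_seam` : [KUM]      `s36_KeyBar N' q → s36_Geom N' q`;
* `s36k_inv0_of_geom_seam`   : [TATE-LIM] `(∀ N' q, q prime, q ∤ N' → s36_Geom N' q) → s36_Inv0`;
* `s36k_inv0_of_keyBar_seam` : `(∀ N' q, q prime, q ∤ N' → s36_KeyBar N' q) → s36_Inv0`;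
* `s36k_pe_inv0_of_seam`     : `s36_Inv0 → s36pe_Inv0` (helper26's form: SOME place over `q`);
* `s36k_result_of_seam`      : the frozen statement of S36 from `tjp_NodeE`, `tjp_S18` and `s36_KeyBar`
                               at all `(N', q)`, `q` prime, `q ∤ N'`.
-/
import Mathlib
import Fermat.Agent.S36.Seams
import Fermat.Agent.S36.Kum.Top
import Fermat.Agent.S35.SeamsKum

set_option autoImplicit false
set_option linter.unusedSectionVars false
set_option linter.unusedVariables false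
set_option linter.style.haveILetI false
set_option linter.overlappingInstances false
set_option synthInstance.maxHeartbeats 400000
set_option maxHeartbeats 1000000

noncomputable section

namespace Fermat.Agent.S36

open IsLocalRing TensorProduct Polynomial Fermat.Agent.JT3 Fermat.Agent.S35 ModularCurve
open CuspForm CuspForm.IsNewform AlgebraicCurve Fermat.Agent.S24 Fermat.Agent.SS

local notation "GQ" => (AlgebraicClosure ℚ ≃ₐ[ℚ] AlgebraicClosure ℚ)
local notation "Qbar" => AlgebraicClosure ℚ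

section Seams

variable (N' q : ℕ) [NeZero N'] [NeZero q]

/-- the official Kummer seam gives the per-place Kummer seam of `S36/Kum/Inv0.lean`. -/
theorem s36k_keyBarAt_of_seam (h : s36_KeyBar N' q) (P : ValuationSubring Qbar)
    (hP : P.LiesOverPrime q) : ∃ d : ℕ, d ≠ 0 ∧ s36k_KeyBarAt (N' * q) q P d := by
  obtain ⟨d, hd, H⟩ := h P hP
  exact ⟨d, hd, H⟩

/-- **[KUM]** the official Kummer seam implies the official geometric seam. -/
theorem s36k_geom_of_keyBar_seam (h : s36_KeyBar N' q) : s36_Geom N' q := by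
  intro P hP
  obtain ⟨d, hd, H⟩ := s36k_keyBarAt_of_seam N' q h P hP
  refine ⟨d, hd, fun m hqm D hmz hfix hP1 hP2 => ?_⟩
  exact s36k_geomAt_of_keyBarAt (N' * q) q H m hqm (Pic0.mk D) hmz hfix
    ((s35sk_P1J_eq_zero_iff (N' * q) q D).2 hP1) ((s35sk_P2J_eq_zero_iff (N' * q) q D).2 hP2)

/-- the official geometric seam gives the per-place geometric seam of `S36/Kum/Inv0.lean`. -/
theorem s36k_geomAt_of_seam (h : s36_Geom N' q) (P : ValuationSubring Qbar)
    (hP : P.LiesOverPrime q) : ∃ d : ℕ, d ≠ 0 ∧ s36k_GeomAt (N' * q) q P d := by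
  obtain ⟨d, hd, H⟩ := h P hP
  refine ⟨d, hd, fun m hqm z hmz hfix hP1 hP2 => ?_⟩
  obtain ⟨D, rfl⟩ := Pic0.mk_surjective z
  exact H m hqm D hmz hfix ((s35sk_P1J_eq_zero_iff (N' * q) q D).1 hP1)
    ((s35sk_P2J_eq_zero_iff (N' * q) q D).1 hP2)

end Seams

/-- **[TATE-LIM]** `s36_Inv0` from the official geometric seam at all `(N', q)`. -/
theorem s36k_inv0_of_geom_seam
    (h : ∀ (N' q : ℕ) [NeZero N'] [NeZero q], q.Prime → ¬ q ∣ N' → s36_Geom N' q) : s36_Inv0 := by
  intro N' q _ _ lam _ hq hqlam hqN' A hA x hfix h1 h2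
  obtain ⟨d, hd, H⟩ := s36k_geomAt_of_seam N' q (h N' q hq hqN') A hA
  exact s36k_inv0_of_geomAt (N' * q) q lam hd H hq hqlam x hfix h1 h2

/-- `s36_Inv0` from the official Kummer seam at all `(N', q)`. -/
theorem s36k_inv0_of_keyBar_seam
    (h : ∀ (N' q : ℕ) [NeZero N'] [NeZero q], q.Prime → ¬ q ∣ N' → s36_KeyBar N' q) : s36_Inv0 :=
  s36k_inv0_of_geom_seam fun N' q _ _ hq hqN' => s36k_geom_of_keyBar_seam N' q (h N' q hq hqN')

/-- the official [INV-0] (every place over `q`) gives helper26's [INV-0] (some place over `q`). -/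
theorem s36k_pe_inv0_of_seam (h : s36_Inv0) : s36pe_Inv0 := by
  intro N q _ _ lam _ hq hqlam hqN
  obtain ⟨A, hA⟩ := smos_exists_place q hq
  exact ⟨A, hA, h N q lam hq hqlam hqN A hA⟩

/-- **S36 from node E, S18 and the official Kummer seam** (the frozen statement verbatim). -/
theorem s36k_result_of_seam (hE : tjp_NodeE) (hS18 : tjp_S18)
    (hK : ∀ (N' q : ℕ) [NeZero N'] [NeZero q], q.Prime → ¬ q ∣ N' → s36_KeyBar N' q)
    {M : ℕ} [NeZero M] {g : CuspForm (CongruenceSubgroup.Gamma0 M) 2} (hg : g.IsNewform)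
    (lam : ℕ) [Fact lam.Prime]
    (S : Finset ℕ)
    (O' : Type) [CommRing O'] [IsDomain O'] [IsDiscreteValuationRing O']
    [IsAdicComplete (IsLocalRing.maximalIdeal O') O'] [Finite (IsLocalRing.ResidueField O')]
    [CharZero O'] (hlamO' : (lam : O') ∈ IsLocalRing.maximalIdeal O')
    (hlam2 : lam ≠ 2)
    (chig : CuspForm.heckeAlgebra M 2 (↑S : Set ℕ) →+* ℂ)
    (hchig : ∀ (ℓ : ℕ) (hℓ : ℓ.Prime) (hℓM : ¬ ℓ ∣ M) (hℓS : ℓ ∉ (↑S : Set ℕ)),
      chig (CuspForm.heckeAlgebra.T hℓ hℓM hℓS) = ModularFormClass.qCoeff g ℓ)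
    (iota : chig.range →+* O')
    (hlamS : lam ∈ S) (hMS : ∀ q : ℕ, q.Prime → q ∣ M → q ∈ S)
    (hres : ∀ (O'' : Type) [CommRing O''] [IsDomain O''] [IsDiscreteValuationRing O'']
      [IsAdicComplete (IsLocalRing.maximalIdeal O'') O''] [Finite (IsLocalRing.ResidueField O'')] [CharZero O'']
      [Algebra O' O''] [Module.Finite O' O''] [IsLocalHom (algebraMap O' O'')],
      Function.Injective (algebraMap O' O'') → ∀ (ρ : GaloisRepAdic O''),
      (∀ (ℓ : ℕ) (hℓ : ℓ.Prime) (hℓlam : ℓ ≠ lam) (hℓM : ¬ ℓ ∣ M) (hℓS : ℓ ∉ (↑S : Set ℕ)),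
        ∀ A : ValuationSubring (AlgebraicClosure ℚ), A.LiesOverPrime ℓ →
          ∀ σ : AlgebraicClosure ℚ ≃ₐ[ℚ] AlgebraicClosure ℚ, A.IsFrobeniusAt σ ℓ →
            LinearMap.charpoly (ρ.ρ σ) =
              X ^ 2 - C (algebraMap O' O'' ((iota.comp chig.rangeRestrict) (CuspForm.heckeAlgebra.T hℓ hℓM hℓS))) * X
                + C ((ℓ : O'')))
      → ρ.residual.IsAbsolutelyIrreducible ∧ ρ.residual.IsOdd)
    :
    ∃ (O'' : Type) (_ : CommRing O'') (_ : IsDomain O'') (_ : IsDiscreteValuationRing O'')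
      (_ : IsAdicComplete (IsLocalRing.maximalIdeal O'') O'') (_ : Finite (IsLocalRing.ResidueField O''))
      (_ : CharZero O'') (_ : Algebra O' O'') (_ : Module.Finite O' O'') (_ : IsLocalHom (algebraMap O' O'')),
      Function.Injective (algebraMap O' O'') ∧
      ∃ ρ : GaloisRepAdic O'',
        (∀ (ℓ : ℕ) (hℓ : ℓ.Prime) (hℓM : ¬ ℓ ∣ M) (hℓS : ℓ ∉ (↑S : Set ℕ)),
          ∀ A : ValuationSubring (AlgebraicClosure ℚ), A.LiesOverPrime ℓ →
            ∀ σ : AlgebraicClosure ℚ ≃ₐ[ℚ] AlgebraicClosure ℚ, A.IsFrobeniusAt σ ℓ →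
              LinearMap.charpoly (ρ.ρ σ) =
                X ^ 2 - C (algebraMap O' O'' ((iota.comp chig.rangeRestrict) (CuspForm.heckeAlgebra.T hℓ hℓM hℓS))) * X
                  + C ((ℓ : O''))) ∧
        (∀ q : ℕ, q.Prime → q ≠ lam → M.factorization q = 2 → ¬ ρ.IsUnipotentOnInertiaAt q) :=
  s36t_result_of hE hS18
    (s36pe_invW_of (s36k_pe_inv0_of_seam (s36k_inv0_of_keyBar_seam hK)) s35t_seamSMO)
    hg lam S O' hlamO' hlam2 chig hchig iota hlamS hMS hres

end Fermat.Agent.S36
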